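import Mathlib.NumberTheory.ModularForms.Derivative
import Mathlib.NumberTheory.ModularForms.NormTrace
import Mathlib.NumberTheory.ModularForms.QExpansion
import Mathlib.NumberTheory.ModularForms.CongruenceSubgroups
import Fermat.Prelude.Thm_Subgroup_IsArithmetic_exists_nat_mem_strictPeriods_conj

set_option autoImplicit false

namespace Fermat.Agent.S22_helper7

open UpperHalfPlane ModularForm Derivative ConjAct Matrix.SpecialLinearGroup
open scoped MatrixGroups ModularForm Manifold Pointwise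

/-- `D^[m]` preserves holomorphy. -/
theorem iterD_mdiff (m : ℕ) {F : ℍ → ℂ} (hF : MDiff F) : MDiff (D^[m] F) := by
  induction m generalizing F with
  | zero => simpa using hF
  | succ n ih =>
    rw [Function.iterate_succ_apply]
    exact ih (normalizedDerivOfComplex_mdifferentiable hF)

theorem iterD_sub (m : ℕ) {F G : ℍ → ℂ} (hF : MDiff F) (hG : MDiff G) :
    D^[m] (F - G) = D^[m] F - D^[m] G := by
  induction m generalizing F G with
  | zero => simp
  | succ n ih =>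
    rw [Function.iterate_succ_apply, Function.iterate_succ_apply, Function.iterate_succ_apply,
      normalizedDerivOfComplex_sub F G hF hG]
    exact ih (normalizedDerivOfComplex_mdifferentiable hF)
      (normalizedDerivOfComplex_mdifferentiable hG)

theorem iterD_zero (m : ℕ) : D^[m] (0 : ℍ → ℂ) = 0 := by
  induction m with
  | zero => simp
  | succ n ih =>
    rw [Function.iterate_succ_apply]
    have : D (0 : ℍ → ℂ) = 0 := normalizedDerivOfComplex_const 0
    rw [this, ih]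

variable {N : ℕ} [NeZero N]

/-- The image of `Γ₀(N)` in `GL(2, ℝ)`. -/
abbrev G0 (N : ℕ) : Subgroup (GL (Fin 2) ℝ) :=
  (CongruenceSubgroup.Gamma0 N).map (Matrix.SpecialLinearGroup.mapGL ℝ)

/-- Hypothesis shape of piece A (iterated antiderivative). -/
def PieceA : Prop :=
  ∀ (m : ℕ) {φ : ℍ → ℂ} {h : ℝ}, 0 < h → MDiff φ → Function.Periodic (φ ∘ ofComplex) h →
    IsZeroAtImInfty φ →
    ∃ G : ℍ → ℂ, MDiff G ∧ Function.Periodic (G ∘ ofComplex) h ∧ IsZeroAtImInfty G ∧ D^[m] G = φ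

/-- Hypothesis shape of piece B (Bol's identity). -/
def PieceB : Prop :=
  ∀ (m : ℕ) {F : ℍ → ℂ}, MDiff F → ∀ {g : GL (Fin 2) ℝ}, 0 < g.val.det →
    D^[m] (F ∣[(1 : ℤ) - m] g) = ((g.val.det : ℂ)⁻¹) ^ m • ((D^[m] F) ∣[(1 : ℤ) + m] g)

/-- Hypothesis shape of piece C, first half. -/
def PieceC1 : Prop :=
  ∀ (m : ℕ) {G : ℍ → ℂ}, MDiff G → D^[m] G = 0 →
    ∃ P : Polynomial ℂ, P.degree < m ∧ G = fun z : ℍ => P.eval (z : ℂ)

/-- Hypothesis shape of piece C, second half. -/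
def PieceC2 : Prop :=
  ∀ {P : Polynomial ℂ} {h : ℝ}, h ≠ 0 →
    Function.Periodic ((fun z : ℍ => P.eval (z : ℂ)) ∘ ofComplex) h → ∃ c : ℂ, P = Polynomial.C c

theorem isBoundedAtImInfty_slash_of_eichler (hA : PieceA) (hB : PieceB) (hC1 : PieceC1)
    (hC2 : PieceC2) {m : ℕ} (f : CuspForm (G0 N) ((1 : ℤ) + m)) (E : ℍ → ℂ) (hE : MDiff E)
    (hD : D^[m] E = ⇑f) (hinv : ∀ γ ∈ G0 N, E ∣[(1 : ℤ) - m] γ = E) (δ : SL(2, ℤ)) :
    IsBoundedAtImInfty (E ∣[(1 : ℤ) - m] δ) := by
  obtain ⟨M, hM, hper⟩ := Subgroup.IsArithmetic.exists_nat_mem_strictPeriods_conj (G0 N)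
  have hMpos : (0 : ℝ) < M := Nat.cast_pos.mpr hM
  set g : GL (Fin 2) ℝ := mapGL ℝ δ with hg
  have hperδ : (M : ℝ) ∈ (toConjAct g⁻¹ • G0 N).strictPeriods := by
    have := hper δ⁻¹
    rwa [map_inv] at this
  -- the translated cusp form
  let f' := CuspForm.translate f g
  have hf'coe : (⇑f' : ℍ → ℂ) = ⇑f ∣[(1 : ℤ) + m] g := rfl
  have hf'per : Function.Periodic (⇑f' ∘ ofComplex) M :=
    SlashInvariantFormClass.periodic_comp_ofComplex f' hperδ
  have hcusp : IsCusp OnePoint.infty (toConjAct g⁻¹ • G0 N) :=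
    Subgroup.isCusp_of_mem_strictPeriods hMpos hperδ
  have hf'zero : IsZeroAtImInfty (⇑f' : ℍ → ℂ) :=
    OnePoint.isZeroAt_infty_iff.mp (CuspFormClass.zero_at_cusps f' hcusp)
  -- the translated Eichler integral
  let Es : SlashInvariantForm (G0 N) ((1 : ℤ) - m) := { toFun := E, slash_action_eq' := hinv }
  let Es' := SlashInvariantForm.translate Es g
  have hEper : Function.Periodic ((E ∣[(1 : ℤ) - m] g) ∘ ofComplex) M :=
    SlashInvariantFormClass.periodic_comp_ofComplex Es' hperδ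
  obtain ⟨E', hE'md, hE'per, hE'zero, hE'D⟩ :=
    hA m (φ := ⇑f') hMpos (CuspFormClass.holo f') hf'per hf'zero
  have hdet1 : g.val.det = 1 := by
    rw [← Matrix.GeneralLinearGroup.val_det_apply]; simp [hg]
  have hdet : 0 < g.val.det := by rw [hdet1]; exact one_pos
  have hBol := hB m hE hdet
  have hdiff : D^[m] (E ∣[(1 : ℤ) - m] g - E') = 0 := by
    rw [iterD_sub m (hE.slash _ g) hE'md, hBol, hD, hE'D, hf'coe, hdet1]
    simp
  obtain ⟨P, -, hP⟩ := hC1 m ((hE.slash _ g).sub hE'md) hdiff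
  have hPper : Function.Periodic ((fun z : ℍ => P.eval (z : ℂ)) ∘ ofComplex) M := by
    rw [← hP]
    intro w
    have h1 := hEper w
    have h2 := hE'per w
    simp only [Function.comp_apply, Pi.sub_apply, Complex.ofReal_natCast] at h1 h2 ⊢
    rw [h1, h2]
  obtain ⟨c, hc⟩ := hC2 hMpos.ne' hPper
  have hEq : E ∣[(1 : ℤ) - m] g = E' + fun _ => c := by
    have : E ∣[(1 : ℤ) - m] g - E' = fun _ => c := by
      rw [hP, hc]; simp
    rw [← this]; abel
  rw [ModularForm.SL_slash]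
  change IsBoundedAtImInfty (E ∣[(1 : ℤ) - m] g)
  rw [hEq]
  exact hE'zero.isBoundedAtImInfty.add (Filter.const_boundedAtFilter _ c)

/-- The Eichler integral, if invariant, is a modular form of weight `1 - m`. -/
theorem exists_modularForm_of_eichler (hA : PieceA) (hB : PieceB) (hC1 : PieceC1)
    (hC2 : PieceC2) {m : ℕ} (f : CuspForm (G0 N) ((1 : ℤ) + m)) (E : ℍ → ℂ) (hE : MDiff E)
    (hD : D^[m] E = ⇑f) (hinv : ∀ γ ∈ G0 N, E ∣[(1 : ℤ) - m] γ = E) {k : ℤ}
    (hk : k = (1 : ℤ) - m) : ∃ EM : ModularForm (G0 N) k, (⇑EM : ℍ → ℂ) = E := by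
  subst hk
  refine ⟨{ toFun := E
            slash_action_eq' := hinv
            holo' := hE
            bdd_at_cusps' := fun {c} hc => ?_ }, rfl⟩
  have hc' := (Subgroup.IsArithmetic.isCusp_iff_isCusp_SL2Z (G0 N)).mp hc
  rw [OnePoint.isBoundedAt_iff_forall_SL2Z hc']
  intro δ _
  exact isBoundedAtImInfty_slash_of_eichler hA hB hC1 hC2 f E hE hD hinv δ

theorem eq_zero_of_eichler_invariant (hA : PieceA) (hB : PieceB) (hC1 : PieceC1)
    (hC2 : PieceC2) {m : ℕ} (hm : 1 ≤ m) (f : CuspForm (G0 N) ((1 : ℤ) + m)) (E : ℍ → ℂ)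
    (hE : MDiff E) (hzero : IsZeroAtImInfty E) (hD : D^[m] E = ⇑f)
    (hinv : ∀ γ ∈ G0 N, E ∣[(1 : ℤ) - m] γ = E) : f = 0 := by
  have hE0 : E = 0 := by
    rcases Nat.lt_or_ge 1 m with h1 | h1
    · obtain ⟨EM, hEM⟩ :=
        exists_modularForm_of_eichler hA hB hC1 hC2 f E hE hD hinv (k := (1 : ℤ) - m) rfl
      have hneg : (1 : ℤ) - m < 0 := by omega
      rw [← hEM, ModularForm.isZero_of_neg_weight hneg EM]
      rfl
    · obtain ⟨EM, hEM⟩ :=
        exists_modularForm_of_eichler hA hB hC1 hC2 f E hE hD hinv (k := 0) (by omega)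
      obtain ⟨c, hc⟩ := ModularForm.eq_const_of_weight_zero EM
      rw [hEM] at hc
      have hc0 : c = 0 := by
        have h1 : Filter.Tendsto E atImInfty (nhds 0) := hzero
        rw [hc] at h1
        exact (tendsto_nhds_unique h1 tendsto_const_nhds).symm ▸ rfl
      rw [hc, hc0]
      rfl
  have hf : (⇑f : ℍ → ℂ) = 0 := by rw [← hD, hE0, iterD_zero]
  exact DFunLike.coe_injective hf

end Fermat.Agent.S22_helper7
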