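import Fermat.Agent.S22_helper7.Separation
import Fermat.Agent.S22_helper29.Antideriv
import Fermat.Agent.S22_helper15.Bol
import Fermat.Agent.S22_helper71.PolyFun

set_option autoImplicit false

namespace Fermat.Agent.S22_helper7

open UpperHalfPlane ModularForm Derivative
open scoped MatrixGroups ModularForm Manifold

theorem pieceA : PieceA := fun m _ _ hh hφ hper hzero =>
  Fermat.Agent.S22_helper29.exists_iterated_antideriv m hh hφ hper hzero

theorem pieceB : PieceB := fun m _ hF _ hg => Fermat.Agent.S22_helper15.bol m hF hg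

theorem pieceC1 : PieceC1 := fun m _ hG h0 =>
  Fermat.Agent.S22_helper71.exists_poly_of_iterate_D_eq_zero m hG h0

theorem pieceC2 : PieceC2 := fun hh hper =>
  Fermat.Agent.S22_helper71.exists_const_of_periodic_polyFun hh hper

variable {N : ℕ} [NeZero N]

/-- **Separation** (hypothesis-free form): if the Eichler integral `E` of a cusp form `f` of
weight `1 + m` (`m ≥ 1`) on `Γ₀(N)` is invariant under the weight `1 - m` slash action of
`Γ₀(N)`, then `f = 0`. -/
theorem separation {m : ℕ} (hm : 1 ≤ m)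
    (f : CuspForm ((CongruenceSubgroup.Gamma0 N).map (Matrix.SpecialLinearGroup.mapGL ℝ))
      ((1 : ℤ) + m))
    (E : ℍ → ℂ) (hE : MDiff E) (hzero : IsZeroAtImInfty E) (hD : D^[m] E = ⇑f)
    (hinv : ∀ γ ∈ (CongruenceSubgroup.Gamma0 N).map (Matrix.SpecialLinearGroup.mapGL ℝ),
      E ∣[(1 : ℤ) - m] γ = E) : f = 0 :=
  eq_zero_of_eichler_invariant pieceA pieceB pieceC1 pieceC2 hm f E hE hzero hD hinv

/-- Variant with the invariance hypothesis quantified over `SL(2, ℤ)` elements of `Γ₀(N)`. -/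
theorem separation' {m : ℕ} (hm : 1 ≤ m)
    (f : CuspForm ((CongruenceSubgroup.Gamma0 N).map (Matrix.SpecialLinearGroup.mapGL ℝ))
      ((1 : ℤ) + m))
    (E : ℍ → ℂ) (hE : MDiff E) (hzero : IsZeroAtImInfty E) (hD : D^[m] E = ⇑f)
    (hinv : ∀ γ : SL(2, ℤ), γ ∈ CongruenceSubgroup.Gamma0 N → E ∣[(1 : ℤ) - m] γ = E) : f = 0 := by
  refine separation hm f E hE hzero hD ?_
  rintro _ ⟨γ, hγ, rfl⟩
  exact hinv γ hγ

end Fermat.Agent.S22_helper7
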